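import Mathlib

set_option autoImplicit false

namespace Fermat.Agent.S49

/-- Auxiliary statement for `exists_eigenvector_ker_le'`: induction over invariant subspaces. -/
theorem exists_eigenvector_aux {K V A : Type*} [Field K] [IsAlgClosed K]
    [AddCommGroup V] [Module K V] [FiniteDimensional K V]
    [CommRing A] (ρ : A →+* Module.End K V) (𝔫 : Ideal A) [h𝔫 : 𝔫.IsPrime] :
    ∀ (n : ℕ) (W : Submodule K V), Module.finrank K W = n → W ≠ ⊥ →
      (∀ t : A, ∀ w ∈ W, ρ t w ∈ W) →
      (∀ t : A, (∀ w ∈ W, ρ t w = 0) → t ∈ 𝔫) →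
      ∃ (g : V) (χ : A →+* K), g ≠ 0 ∧ (∀ t, ρ t g = χ t • g) ∧ RingHom.ker χ ≤ 𝔫 := by
  intro n
  induction n using Nat.strong_induction_on with
  | _ n ih =>
    intro W hWn hW0 hstab hann
    have hcomm : ∀ s t : A, ∀ w : V, ρ s (ρ t w) = ρ t (ρ s w) := by
      intro s t w
      rw [← Module.End.mul_apply, ← Module.End.mul_apply, ← map_mul, ← map_mul, mul_comm]
    by_cases hsc : ∀ t : A, ∃ c : K, ∀ w ∈ W, ρ t w = c • w
    · -- every `t` acts as a scalar on `W`
      obtain ⟨g, hgW, hg0⟩ := Submodule.exists_mem_ne_zero_of_ne_bot hW0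
      choose c hc using hsc
      have huniq : ∀ a b : K, a • g = b • g → a = b := by
        intro a b hab
        by_contra hne
        have : (a - b) • g = 0 := by rw [sub_smul, hab, sub_self]
        rcases smul_eq_zero.mp this with h | h
        · exact hne (sub_eq_zero.mp h)
        · exact hg0 h
      let χ : A →+* K :=
        { toFun := c
          map_one' := by
            apply huniq
            rw [← hc 1 g hgW, map_one, Module.End.one_apply, one_smul]
          map_mul' := by
            intro s t
            apply huniq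
            rw [← hc (s * t) g hgW, map_mul, Module.End.mul_apply, hc t g hgW, map_smul,
              hc s g hgW, smul_smul, mul_comm]
          map_zero' := by
            apply huniq
            rw [← hc 0 g hgW, map_zero, LinearMap.zero_apply, zero_smul]
          map_add' := by
            intro s t
            apply huniq
            rw [← hc (s + t) g hgW, map_add, LinearMap.add_apply, hc s g hgW, hc t g hgW,
              add_smul] }
      refine ⟨g, χ, hg0, fun t => hc t g hgW, ?_⟩
      intro t ht
      apply hann
      intro w hw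
      have h0 : c t = 0 := ht
      rw [hc t w hw, h0, zero_smul]
    · -- some `t` does not act as a scalar on `W`
      push Not at hsc
      obtain ⟨t, ht⟩ := hsc
      have : Nontrivial W := Submodule.nontrivial_iff_ne_bot.mpr hW0
      obtain ⟨μ, hμ⟩ := Module.End.exists_eigenvalue ((ρ t).restrict (hstab t))
      obtain ⟨v, hv⟩ := hμ.exists_hasEigenvector
      have hv0 : (v : V) ≠ 0 := fun h => hv.2 (Subtype.ext h)
      have hvμ : ρ t (v : V) = μ • (v : V) := by
        have := congrArg Subtype.val hv.apply_eq_smul
        simpa using this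
      -- the operator `S = ρ t - μ`
      set S : Module.End K V := ρ t - μ • (1 : Module.End K V) with hS
      have hSapp : ∀ w, S w = ρ t w - μ • w := by
        intro w
        simp [hS]
      have hScomm : ∀ s : A, ∀ w : V, ρ s (S w) = S (ρ s w) := by
        intro s w
        rw [hSapp, hSapp, map_sub, map_smul, hcomm s t w]
      have hSW : ∀ w ∈ W, S w ∈ W := by
        intro w hw
        rw [hSapp]
        exact W.sub_mem (hstab t w hw) (W.smul_mem μ hw)
      obtain ⟨w₀, hw₀W, hw₀⟩ := ht μ
      have hSw₀ : S w₀ ≠ 0 := by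
        rw [hSapp]
        exact fun h => hw₀ (sub_eq_zero.mp h)
      -- the two smaller invariant subspaces
      set W' : Submodule K V := W ⊓ LinearMap.ker S with hW'
      set W'' : Submodule K V := W.map S with hW''
      have hW'le : W' ≤ W := inf_le_left
      have hW''le : W'' ≤ W := by
        rintro _ ⟨w, hw, rfl⟩
        exact hSW w hw
      have hW'ne : W' ≠ ⊥ := by
        intro h
        have hvW' : (v : V) ∈ W' := by
          refine Submodule.mem_inf.mpr ⟨v.2, LinearMap.mem_ker.mpr ?_⟩
          rw [hSapp, hvμ, sub_self]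
        rw [h] at hvW'
        exact hv0 ((Submodule.mem_bot K).mp hvW')
      have hW''ne : W'' ≠ ⊥ := by
        intro h
        have : S w₀ ∈ W'' := ⟨w₀, hw₀W, rfl⟩
        rw [h] at this
        exact hSw₀ ((Submodule.mem_bot K).mp this)
      have hW'lt : W' < W := by
        refine lt_of_le_of_ne hW'le ?_
        intro h
        have : w₀ ∈ W' := h ▸ hw₀W
        exact hSw₀ (LinearMap.mem_ker.mp (Submodule.mem_inf.mp this).2)
      have hW''lt : W'' < W := by
        refine lt_of_le_of_ne hW''le ?_
        intro h
        -- `S` restricted to `W` is surjective onto `W`, hence injective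
        have hsurj : Function.Surjective (S.restrict hSW) := by
          rintro ⟨y, hy⟩
          have hy' : y ∈ W'' := h ▸ hy
          obtain ⟨x, hx, rfl⟩ := hy'
          exact ⟨⟨x, hx⟩, Subtype.ext rfl⟩
        have hinj : Function.Injective (S.restrict hSW) :=
          LinearMap.injective_iff_surjective.mpr hsurj
        have h1 : (S.restrict hSW) v = 0 := by
          apply Subtype.ext
          simp only [LinearMap.coe_restrict_apply, ZeroMemClass.coe_zero]
          rw [hSapp, hvμ, sub_self]
        have : v = 0 := hinj (h1.trans (map_zero _).symm)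
        exact hv.2 this
      have hW'stab : ∀ s : A, ∀ w ∈ W', ρ s w ∈ W' := by
        intro s w hw
        have hw' := Submodule.mem_inf.mp hw
        refine Submodule.mem_inf.mpr ⟨hstab s w hw'.1, LinearMap.mem_ker.mpr ?_⟩
        rw [← hScomm, LinearMap.mem_ker.mp hw'.2, map_zero]
      have hW''stab : ∀ s : A, ∀ w ∈ W'', ρ s w ∈ W'' := by
        rintro s _ ⟨w, hw, rfl⟩
        exact ⟨ρ s w, hstab s w hw, (hScomm s w).symm⟩
      by_cases h' : ∀ s : A, (∀ w ∈ W', ρ s w = 0) → s ∈ 𝔫
      · exact ih (Module.finrank K W') (hWn ▸ Submodule.finrank_lt_finrank_of_lt hW'lt) W' rfl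
          hW'ne hW'stab h'
      · push Not at h'
        obtain ⟨s', hs', hs'n⟩ := h'
        refine ih (Module.finrank K W'') (hWn ▸ Submodule.finrank_lt_finrank_of_lt hW''lt) W'' rfl
          hW''ne hW''stab ?_
        intro s'' hs''
        have hprod : s' * s'' ∈ 𝔫 := by
          apply hann
          intro w hw
          rw [map_mul, Module.End.mul_apply]
          apply hs'
          refine Submodule.mem_inf.mpr ⟨hstab s'' w hw, LinearMap.mem_ker.mpr ?_⟩
          rw [← hScomm]
          exact hs'' _ ⟨w, hw, rfl⟩
        rcases h𝔫.mem_or_mem hprod with h | h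
        · exact absurd h hs'n
        · exact h

/-- (C), general form: `ρ` need not be injective, only `ker ρ ≤ 𝔫`. -/
theorem exists_eigenvector_ker_le' {K V A : Type*} [Field K] [IsAlgClosed K]
    [AddCommGroup V] [Module K V] [FiniteDimensional K V]
    [CommRing A] (ρ : A →+* Module.End K V)
    (𝔫 : Ideal A) [h𝔫 : 𝔫.IsPrime] (hρ : RingHom.ker ρ ≤ 𝔫) :
    ∃ (g : V) (χ : A →+* K), g ≠ 0 ∧ (∀ t, ρ t g = χ t • g) ∧ RingHom.ker χ ≤ 𝔫 := by
  have hann : ∀ t : A, (∀ w ∈ (⊤ : Submodule K V), ρ t w = 0) → t ∈ 𝔫 := by
    intro t ht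
    apply hρ
    rw [RingHom.mem_ker]
    ext w
    simpa using ht w Submodule.mem_top
  refine exists_eigenvector_aux ρ 𝔫 _ ⊤ rfl ?_ (fun _ _ _ => Submodule.mem_top) hann
  intro htop
  apply (Ideal.ne_top_iff_one 𝔫).mp h𝔫.ne_top
  apply hann
  intro w _
  have : w ∈ (⊥ : Submodule K V) := htop ▸ Submodule.mem_top
  rw [(Submodule.mem_bot K).mp this, map_zero]

/-- (C) linear algebra lemma: a commutative ring acting faithfully on a finite-dimensional
vector space over an algebraically closed field has, for every prime ideal `𝔫`, a simultaneous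
eigenvector whose eigencharacter has kernel contained in `𝔫`. -/
theorem exists_eigenvector_ker_le {K V A : Type*} [Field K] [IsAlgClosed K]
    [AddCommGroup V] [Module K V] [FiniteDimensional K V]
    [CommRing A] (ρ : A →+* Module.End K V) (hρ : Function.Injective ρ)
    (𝔫 : Ideal A) [𝔫.IsPrime] :
    ∃ (g : V) (χ : A →+* K), g ≠ 0 ∧ (∀ t, ρ t g = χ t • g) ∧ RingHom.ker χ ≤ 𝔫 := by
  apply exists_eigenvector_ker_le' ρ 𝔫
  intro t ht
  rw [RingHom.mem_ker] at ht
  rw [hρ (ht.trans (map_zero ρ).symm)]
  exact 𝔫.zero_mem

end Fermat.Agent.S49
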