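import Mathlib
import Fermat.Prelude.Def_FormalHecke_Eigensystem

set_option autoImplicit false

namespace Fermat.Agent.S49

variable {R : Type*} [CommRing R]

/-- Prime-power recursion from the formal Hecke relations. -/
theorem formal_prime_pow {e a : ℕ → R} (h : FormalHecke.IsEigensystem e a)
    (ℓ r : ℕ) (hℓ : ℓ.Prime) :
    a (ℓ ^ (r + 2)) = a ℓ * a (ℓ ^ (r + 1)) - e ℓ * a (ℓ ^ r) := by
  have h1 := h.2 ℓ hℓ (ℓ ^ (r + 1))
  have hdvd : ℓ ∣ ℓ ^ (r + 1) := dvd_pow_self ℓ (Nat.succ_ne_zero r)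
  rw [if_pos hdvd] at h1
  have hdiv : ℓ ^ (r + 1) / ℓ = ℓ ^ r := by
    rw [pow_succ, Nat.mul_div_cancel _ hℓ.pos]
  rw [hdiv] at h1
  have hpow : ℓ * ℓ ^ (r + 1) = ℓ ^ (r + 2) := by ring
  rw [hpow] at h1
  rw [← h1]; ring

/-- `a (ℓ^k * n) = a (ℓ^k) * a n` when `ℓ ∤ n`. -/
theorem formal_prime_pow_mul {e a : ℕ → R} (h : FormalHecke.IsEigensystem e a)
    (ℓ : ℕ) (hℓ : ℓ.Prime) (n : ℕ) (hn : ¬ ℓ ∣ n) (k : ℕ) :
    a (ℓ ^ k * n) = a (ℓ ^ k) * a n := by
  induction k using Nat.strong_induction_on with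
  | _ k ih =>
    match k, ih with
    | 0, _ => simp [h.1]
    | 1, _ =>
      have h1 := h.2 ℓ hℓ n
      rw [if_neg hn, mul_zero, add_zero] at h1
      simpa using h1
    | (k + 2), ih =>
      have h1 := h.2 ℓ hℓ (ℓ ^ (k + 1) * n)
      have hdvd : ℓ ∣ ℓ ^ (k + 1) * n := Dvd.dvd.mul_right (dvd_pow_self ℓ (Nat.succ_ne_zero k)) n
      rw [if_pos hdvd] at h1
      have hdiv : ℓ ^ (k + 1) * n / ℓ = ℓ ^ k * n := by
        rw [pow_succ, mul_assoc, mul_comm ℓ n, ← mul_assoc, Nat.mul_div_cancel _ hℓ.pos]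
      rw [hdiv] at h1
      have hpow : ℓ * (ℓ ^ (k + 1) * n) = ℓ ^ (k + 2) * n := by ring
      rw [hpow, ih (k + 1) (by omega), ih k (by omega)] at h1
      rw [formal_prime_pow h ℓ k hℓ]
      have : a (ℓ ^ (k + 2) * n) = a ℓ * (a (ℓ ^ (k + 1)) * a n) - e ℓ * (a (ℓ ^ k) * a n) := by
        rw [← h1]; ring
      rw [this]; ring

/-- Multiplicativity on coprime arguments from the formal Hecke relations. -/
theorem formal_mul_of_coprime {e a : ℕ → R} (h : FormalHecke.IsEigensystem e a)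
    (m n : ℕ) (hmn : m.Coprime n) : a (m * n) = a m * a n := by
  induction m using Nat.recOnPosPrimePosCoprime generalizing n with
  | zero =>
    have : n = 1 := by simpa using hmn
    subst this
    simp [h.1]
  | one => simp [h.1]
  | prime_pow p k hp hk =>
    have hpn : ¬ p ∣ n := by
      intro hdvd
      have := Nat.Coprime.coprime_dvd_left (dvd_pow_self p hk.ne') hmn
      exact hp.one_lt.ne' (Nat.Coprime.eq_one_of_dvd this hdvd)
    exact formal_prime_pow_mul h p hp n hpn k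
  | coprime x y hx hy hxy ihx ihy =>
    have hxn : x.Coprime n := Nat.Coprime.coprime_dvd_left (Dvd.intro y rfl) hmn
    have hyn : y.Coprime n := Nat.Coprime.coprime_dvd_left (Dvd.intro_left x rfl) hmn
    have hxyn : x.Coprime (y * n) := Nat.Coprime.mul_right hxy hxn
    rw [mul_assoc, ihx (y * n) hxyn, ihy n hyn, ihx y hxy]
    ring

/-- A formal Hecke eigensystem is recursive (multiplicative with prime-power recursion). -/
theorem isRecursive_of_isEigensystem {e a : ℕ → R} (h : FormalHecke.IsEigensystem e a) :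
    FormalHecke.IsRecursive e a :=
  ⟨h.1, formal_mul_of_coprime h, fun ℓ r hℓ => formal_prime_pow h ℓ r hℓ⟩

end Fermat.Agent.S49
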