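import Mathlib
import Fermat.Prelude.Def_FLTPrelim_Modularity
import Fermat.Agent.S49.Formal

set_option autoImplicit false

namespace Fermat.Agent.S49

open CongruenceSubgroup

/-- If the `q`-coefficients of a weight-2 cusp form on `Γ₀(N)` satisfy the formal Hecke relations
with `e ℓ = ℓ` for `ℓ ∤ N` and `e ℓ = 0` for `ℓ ∣ N`, the form is a normalised eigenform in the
sense of the prelude. -/
theorem isNormalizedEigenform_of_isEigensystem {N : ℕ} (f : CuspForm (Gamma0 N) 2)
    (h : FormalHecke.IsEigensystem (fun ℓ : ℕ => if ℓ ∣ N then (0 : ℂ) else (ℓ : ℂ))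
      (fun n => ModularFormClass.qCoeff f n)) :
    f.IsNormalizedEigenform := by
  obtain ⟨h1, hmul, hpow⟩ := isRecursive_of_isEigensystem h
  refine ⟨h1, hmul, ?_, ?_⟩
  · intro p r hp hpN
    have := hpow p r hp
    simpa [if_neg hpN] using this
  · intro p r hp hpN
    have := hpow p r hp
    simpa [if_pos hpN] using this

end Fermat.Agent.S49
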