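import Fermat.Agent.S49.Glue
import Fermat.Agent.S49.FormalEigenform

set_option autoImplicit false
open CuspForm CongruenceSubgroup ModularFormClass

namespace Fermat.Agent.S49

variable {N : ℕ}

/-- If the coefficients `b` satisfy eigen-relations with eigenvalues `lam` and `b 0 = b 1 = 0`,
then all coefficients vanish. -/
theorem formal_eq_zero_of_one_eq_zero {e lam b : ℕ → ℂ}
    (hrel : ∀ ℓ : ℕ, ℓ.Prime → ∀ n : ℕ,
      b (n * ℓ) + e ℓ * (if ℓ ∣ n then b (n / ℓ) else 0) = lam ℓ * b n)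
    (h0 : b 0 = 0) (h1 : b 1 = 0) : ∀ n, b n = 0 := by
  intro n
  induction n using Nat.strong_induction_on with
  | _ n ih =>
    rcases Nat.lt_or_ge n 2 with hn | hn
    · interval_cases n
      · exact h0
      · exact h1
    · have hn1 : n ≠ 1 := by omega
      have hℓ : (n.minFac).Prime := Nat.minFac_prime hn1
      obtain ⟨m, hm⟩ := Nat.minFac_dvd n
      have hmpos : 0 < m := by
        rcases Nat.eq_zero_or_pos m with h | h
        · subst h; omega
        · exact h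
      have hmlt : m < n := by
        have := hℓ.one_lt
        nlinarith
      have hrel' := hrel n.minFac hℓ m
      have hnm : m * n.minFac = n := by rw [mul_comm]; exact hm.symm
      rw [hnm, ih m hmlt, mul_zero] at hrel'
      by_cases hd : n.minFac ∣ m
      · rw [if_pos hd] at hrel'
        have hlt : m / n.minFac < n := lt_of_le_of_lt (Nat.div_le_self _ _) hmlt
        rw [ih _ hlt, mul_zero, add_zero] at hrel'
        exact hrel'
      · rw [if_neg hd, mul_zero, add_zero] at hrel'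
        exact hrel'

/-- (E4) A simultaneous eigenvector of the Hecke algebra can be normalised to a normalised
eigenform whose prime coefficients are the eigenvalues. -/
theorem exists_normalized_eigenform [NeZero N] (g : CuspForm (Gamma0 N) 2) (hg : g ≠ 0)
    (χ : heckeAlgebra N 2 (∅ : Set ℕ) →+* ℂ)
    (hχ : ∀ t : heckeAlgebra N 2 (∅ : Set ℕ),
      (t : Module.End ℂ (CuspForm (Gamma0 N) 2)) g = χ t • g) :
    ∃ f : CuspForm (Gamma0 N) 2, f.IsNormalizedEigenform ∧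
      ∀ (ℓ : ℕ) (hℓ : ℓ.Prime) (hℓN : ¬ ℓ ∣ N),
        ModularFormClass.qCoeff f ℓ = χ (heckeAlgebra.T hℓ hℓN (Set.notMem_empty _)) := by
  classical
  -- eigenvalues
  let lam : ℕ → ℂ := fun ℓ =>
    if hℓ : ℓ.Prime then
      if hℓN : ℓ ∣ N then χ (heckeAlgebra.U hℓ hℓN (Set.notMem_empty _))
      else χ (heckeAlgebra.T hℓ hℓN (Set.notMem_empty _))
    else 0
  let e : ℕ → ℂ := fun ℓ => if ℓ ∣ N then (0 : ℂ) else (ℓ : ℂ)
  have hrel : ∀ ℓ : ℕ, ℓ.Prime → ∀ n : ℕ,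
      qCoeff ⇑g (n * ℓ) + e ℓ * (if ℓ ∣ n then qCoeff ⇑g (n / ℓ) else 0)
        = lam ℓ * qCoeff ⇑g n := by
    intro ℓ hℓ n
    by_cases hℓN : ℓ ∣ N
    · have h1 := hχ (heckeAlgebra.U hℓ hℓN (Set.notMem_empty _))
      rw [heckeAlgebra.coe_U] at h1
      have h2 := congrArg (fun F : CuspForm (Gamma0 N) 2 => qCoeff ⇑F n) h1
      simp only [glue_qCoeff_heckeULin hℓ hℓN, glue_qCoeff_smul] at h2
      simp only [e, lam, dif_pos hℓ, dif_pos hℓN, if_pos hℓN, zero_mul, add_zero]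
      exact h2
    · have h1 := hχ (heckeAlgebra.T hℓ hℓN (Set.notMem_empty _))
      rw [heckeAlgebra.coe_T] at h1
      have h2 := congrArg (fun F : CuspForm (Gamma0 N) 2 => qCoeff ⇑F n) h1
      simp only [glue_qCoeff_heckeTLin hℓ hℓN, glue_qCoeff_smul] at h2
      simp only [e, lam, dif_pos hℓ, dif_neg hℓN, if_neg hℓN]
      rw [← h2]
      split_ifs <;> ring
  -- the first coefficient is nonzero
  have hb1 : qCoeff ⇑g 1 ≠ 0 := by
    intro h1
    exact hg (glue_eq_zero_of_qCoeff g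
      (formal_eq_zero_of_one_eq_zero hrel (glue_qCoeff_zero_idx g) h1))
  -- normalise
  refine ⟨(qCoeff ⇑g 1)⁻¹ • g, ?_, ?_⟩
  · apply isNormalizedEigenform_of_isEigensystem
    refine ⟨?_, ?_⟩
    · simp only [glue_qCoeff_smul]
      exact inv_mul_cancel₀ hb1
    · intro ℓ hℓ n
      have hℓ1 := hrel ℓ hℓ 1
      have hnd : ¬ ℓ ∣ 1 := fun h => hℓ.one_lt.ne' (Nat.dvd_one.mp h)
      rw [if_neg hnd, mul_zero, add_zero, one_mul] at hℓ1
      have hn := hrel ℓ hℓ n
      simp only [glue_qCoeff_smul]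
      rw [mul_comm ℓ n]
      have key : (qCoeff ⇑g 1)⁻¹ * qCoeff ⇑g ℓ = lam ℓ := by
        rw [hℓ1]
        field_simp
      calc (qCoeff ⇑g 1)⁻¹ * qCoeff ⇑g (n * ℓ)
            + (if ℓ ∣ N then (0 : ℂ) else (ℓ : ℂ)) *
              (if ℓ ∣ n then (qCoeff ⇑g 1)⁻¹ * qCoeff ⇑g (n / ℓ) else 0)
          = (qCoeff ⇑g 1)⁻¹ * (qCoeff ⇑g (n * ℓ)
              + e ℓ * (if ℓ ∣ n then qCoeff ⇑g (n / ℓ) else 0)) := by
            simp only [e]
            split_ifs <;> ring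
        _ = (qCoeff ⇑g 1)⁻¹ * (lam ℓ * qCoeff ⇑g n) := by rw [hn]
        _ = (qCoeff ⇑g 1)⁻¹ * qCoeff ⇑g ℓ * ((qCoeff ⇑g 1)⁻¹ * qCoeff ⇑g n) := by
            rw [key]; ring
  · intro ℓ hℓ hℓN
    have hℓ1 := hrel ℓ hℓ 1
    have hnd : ¬ ℓ ∣ 1 := fun h => hℓ.one_lt.ne' (Nat.dvd_one.mp h)
    rw [if_neg hnd, mul_zero, add_zero, one_mul] at hℓ1
    rw [glue_qCoeff_smul, hℓ1]
    simp only [lam, dif_pos hℓ, dif_neg hℓN]
    field_simp

end Fermat.Agent.S49
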