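import Fermat.Prelude.Def_CuspForm_IntegralLattice
import Fermat.Prelude.Def_CuspForm_HeckeLocal

set_option autoImplicit false
open CuspForm CongruenceSubgroup ModularFormClass

namespace Fermat.Agent.S49

variable {N : ℕ}

theorem qIntegralSet_subset_intLattice (N : ℕ) :
    qIntegralSet N ⊆ (intLattice N 2 : Set (CuspForm (Gamma0 N) 2)) := by
  intro f hf
  apply Submodule.subset_span
  intro n
  obtain ⟨m, hm⟩ := Subring.mem_bot.mp (hf n)
  exact ⟨m, hm.symm⟩

theorem hasIntegralStructure_of_hasIntegralBasis (h : CuspForm.HasIntegralBasis N) :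
    CuspForm.HasIntegralStructure N 2 := by
  unfold CuspForm.HasIntegralStructure
  unfold CuspForm.HasIntegralBasis at h
  exact top_le_iff.mp (h ▸ Submodule.span_mono (qIntegralSet_subset_intLattice N))

/-- (E2) -/
theorem finiteDimensional_of_hasIntegralBasis [NeZero N] (h : CuspForm.HasIntegralBasis N) :
    FiniteDimensional ℂ (CuspForm (Gamma0 N) 2) := by
  obtain ⟨S, hS⟩ := CuspForm.intLattice_fg N 2
  have hint := hasIntegralStructure_of_hasIntegralBasis h
  unfold CuspForm.HasIntegralStructure at hint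
  refine ⟨⟨S, top_le_iff.mp ?_⟩⟩
  rw [← hint]
  apply Submodule.span_le.mpr
  intro f hf
  have hf' : f ∈ Submodule.span ℤ (S : Set (CuspForm (Gamma0 N) 2)) := hS ▸ hf
  exact Submodule.span_le_restrictScalars ℤ ℂ _ hf'

/-- (E3) -/
theorem isIntegral_heckeAlgebra [NeZero N] (h : CuspForm.HasIntegralBasis N)
    (t : heckeAlgebra N 2 (∅ : Set ℕ)) : IsIntegral ℤ t := by
  have hbij := CuspForm.latticeRestrictHom_bijective N (∅ : Set ℕ)
    (hasIntegralStructure_of_hasIntegralBasis h)
  have h1 : IsIntegral ℤ (CuspForm.latticeRestrictHom N (∅ : Set ℕ) t) :=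
    Algebra.IsIntegral.isIntegral _
  exact (isIntegral_algHom_iff _ hbij.1).mp h1

end Fermat.Agent.S49
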