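import Fermat.Agent.S49.Glue
import Fermat.Prelude.Def_CuspForm_IntegralLattice
import Fermat.Prelude.Def_FormalHecke_Eigensystem
import Fermat.Prelude.Thm_CuspForm_mem_intLattice_of_mem_heckeAlgebra
import Fermat.Prelude.Thm_CuspForm_intLattice_fg

set_option autoImplicit false
open CuspForm EisensteinWeightOne CongruenceSubgroup ModularFormClass

namespace Fermat.Agent.S49

variable {N : ℕ}

/-- `χ₋₃(ℓ) ≡ ℓ mod 3`. -/
theorem three_dvd_natCast_sub_chiNegThree (ℓ : ℕ) : (3 : ℤ) ∣ (ℓ : ℤ) - chiNegThree ℓ := by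
  unfold chiNegThree
  split_ifs <;> omega

/-- The Eisenstein factor is `≡ 1 mod 3`, hence the bridge product is `≡ a mod 3`. -/
theorem three_dvd_bridgeProduct_coeff_sub (a : ℕ → ℤ) (n : ℕ) :
    (3 : ℤ) ∣ (bridgeProduct a).coeff n - a n := by
  have hE : e1Chi3In ℤ = 1 + PowerSeries.C (3 : ℤ) *
      PowerSeries.mk (fun n => if n = 0 then (0 : ℤ) else 2 * sigmaChi n) := by
    ext m
    simp only [e1Chi3In, e1Chi3, PowerSeries.coeff_map, PowerSeries.coeff_mk, map_add,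
      PowerSeries.coeff_one, PowerSeries.coeff_C_mul, Int.coe_castRingHom, Int.cast_id]
    split_ifs <;> simp <;> ring
  unfold bridgeProduct
  rw [hE, mul_add, mul_one, map_add, PowerSeries.coeff_mk, add_sub_cancel_left,
    mul_left_comm, PowerSeries.coeff_C_mul]
  exact dvd_mul_right _ _

/-- Forms all of whose coefficients are integers divisible by three. -/
def IsThreeDivisible (g : CuspForm (Gamma0 N) 2) : Prop :=
  ∀ n : ℕ, ∃ m : ℤ, qCoeff ⇑g n = 3 * (m : ℂ)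

theorem isThreeDivisible_apply [NeZero N] {g : CuspForm (Gamma0 N) 2}
    (hg : IsThreeDivisible g) (t : heckeAlgebra N 2 (∅ : Set ℕ)) :
    IsThreeDivisible ((t : Module.End ℂ (CuspForm (Gamma0 N) 2)) g) := by
  have hg' : (3 : ℂ)⁻¹ • g ∈ intLattice N 2 := by
    apply Submodule.subset_span
    intro n
    obtain ⟨m, hm⟩ := hg n
    refine ⟨m, ?_⟩
    rw [glue_qCoeff_smul, hm]
    field_simp
  have htg' := CuspForm.mem_intLattice_of_mem_heckeAlgebra one_le_two t.2 hg'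
  rw [P2MW.S_CuspForm_intLattice_fg.W3WsD.mem_intLattice_iff] at htg'
  intro n
  obtain ⟨m, hm⟩ := htg' n
  refine ⟨m, ?_⟩
  have h3 : g = (3 : ℂ) • ((3 : ℂ)⁻¹ • g) := by
    rw [smul_smul, mul_inv_cancel₀ (by norm_num : (3 : ℂ) ≠ 0), one_smul]
  rw [h3, map_smul, glue_qCoeff_smul, hm]

theorem coe_algebraMap_apply [NeZero N] (z : ℤ) (f : CuspForm (Gamma0 N) 2) :
    ((algebraMap ℤ (heckeAlgebra N 2 (∅ : Set ℕ)) z : heckeAlgebra N 2 (∅ : Set ℕ)) :
      Module.End ℂ (CuspForm (Gamma0 N) 2)) f = (z : ℂ) • f := by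
  rw [Subalgebra.coe_algebraMap, Algebra.algebraMap_eq_smul_one, LinearMap.smul_apply,
    Module.End.one_apply]
  exact (Int.cast_smul_eq_zsmul ℂ z f).symm

/-- (B) the maximal ideal of the Hecke algebra attached to the mod-3 eigensystem. -/
theorem exists_maximal_ideal_mod_three [NeZero N] {a : ℕ → ℤ}
    (heig : FormalHecke.IsEigensystem
      (fun ℓ => if ℓ ∣ N then 0 else ((chiNegThree ℓ : ℤ) : ℤ)) a)
    (hreal : CuspForm.IsLatticeRealized N a) :
    ∃ 𝔫 : Ideal (heckeAlgebra N 2 (∅ : Set ℕ)), 𝔫.IsMaximal ∧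
      (3 : heckeAlgebra N 2 (∅ : Set ℕ)) ∈ 𝔫 ∧
      ∀ (ℓ : ℕ) (hℓ : ℓ.Prime) (hℓN : ¬ ℓ ∣ N),
        (heckeAlgebra.T hℓ hℓN (Set.notMem_empty _) : heckeAlgebra N 2 (∅ : Set ℕ))
          - algebraMap ℤ _ (a ℓ) ∈ 𝔫 := by
  classical
  obtain ⟨f₀, -, af, haf, hcong⟩ := hreal
  -- `af ≡ a mod 3`
  have hmod : ∀ n, (3 : ℤ) ∣ af n - a n := by
    intro n
    have h1 := hcong n
    have h2 := three_dvd_bridgeProduct_coeff_sub a n
    have := dvd_add h1 h2
    simpa using this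
  -- the ideal
  let 𝔫₀ : Ideal (heckeAlgebra N 2 (∅ : Set ℕ)) :=
    { carrier := {t | IsThreeDivisible ((t : Module.End ℂ (CuspForm (Gamma0 N) 2)) f₀)}
      add_mem' := by
        intro s t hs ht n
        obtain ⟨m₁, hm₁⟩ := hs n
        obtain ⟨m₂, hm₂⟩ := ht n
        refine ⟨m₁ + m₂, ?_⟩
        rw [Subalgebra.coe_add, LinearMap.add_apply, glue_qCoeff_add, hm₁, hm₂]
        push_cast
        ring
      zero_mem' := by
        intro n
        refine ⟨0, ?_⟩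
        rw [Subalgebra.coe_zero, LinearMap.zero_apply]
        have : (0 : CuspForm (Gamma0 N) 2) = (0 : ℂ) • (0 : CuspForm (Gamma0 N) 2) := by simp
        rw [this, glue_qCoeff_smul]
        simp
      smul_mem' := by
        intro c t ht
        have := isThreeDivisible_apply ht c
        simpa [Module.End.mul_apply] using this }
  have hmem : ∀ t : heckeAlgebra N 2 (∅ : Set ℕ),
      t ∈ 𝔫₀ ↔ IsThreeDivisible ((t : Module.End ℂ (CuspForm (Gamma0 N) 2)) f₀) :=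
    fun t => Iff.rfl
  have hne : 𝔫₀ ≠ ⊤ := by
    rw [Ideal.ne_top_iff_one, hmem]
    intro h1
    obtain ⟨m, hm⟩ := h1 1
    rw [Subalgebra.coe_one, Module.End.one_apply, ← haf 1] at hm
    have hm' : af 1 = 3 * m := by exact_mod_cast hm
    have h3 := hmod 1
    rw [heig.1, hm'] at h3
    omega
  obtain ⟨𝔫, h𝔫max, hle⟩ := Ideal.exists_le_maximal 𝔫₀ hne
  refine ⟨𝔫, h𝔫max, hle ?_, fun ℓ hℓ hℓN => hle ?_⟩
  · rw [hmem]
    intro n
    refine ⟨af n, ?_⟩
    have h3 : ((3 : heckeAlgebra N 2 (∅ : Set ℕ)) : Module.End ℂ (CuspForm (Gamma0 N) 2)) f₀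
        = (3 : ℂ) • f₀ := by
      have h33 : (3 : heckeAlgebra N 2 (∅ : Set ℕ)) =
          algebraMap ℤ (heckeAlgebra N 2 (∅ : Set ℕ)) 3 := (map_ofNat _ 3).symm
      rw [h33, coe_algebraMap_apply]
      norm_num
    rw [h3, glue_qCoeff_smul, haf n]
  · rw [hmem]
    intro n
    -- the n-th coefficient of `T_ℓ f₀ - a ℓ • f₀`
    have happ : ((heckeAlgebra.T hℓ hℓN (Set.notMem_empty _) - algebraMap ℤ _ (a ℓ) :
        heckeAlgebra N 2 (∅ : Set ℕ)) : Module.End ℂ (CuspForm (Gamma0 N) 2)) f₀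
        = CuspForm.heckeTLin 2 hℓ hℓN f₀ - ((a ℓ : ℤ) : ℂ) • f₀ := by
      rw [Subalgebra.coe_sub, LinearMap.sub_apply, coe_algebraMap_apply, heckeAlgebra.coe_T]
    rw [happ, glue_qCoeff_sub, glue_qCoeff_heckeTLin, glue_qCoeff_smul, ← haf n, ← haf (n * ℓ)]
    have hrel := heig.2 ℓ hℓ n
    simp only [if_neg hℓN] at hrel
    rw [mul_comm ℓ n] at hrel
    obtain ⟨d₁, hd₁⟩ := hmod (n * ℓ)
    obtain ⟨d₂, hd₂⟩ := hmod n
    obtain ⟨d₃, hd₃⟩ := hmod ℓ
    obtain ⟨c, hc⟩ := three_dvd_natCast_sub_chiNegThree ℓ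
    by_cases hdvd : ℓ ∣ n
    · rw [if_pos hdvd] at hrel ⊢
      obtain ⟨d₄, hd₄⟩ := hmod (n / ℓ)
      rw [← haf (n / ℓ)]
      refine ⟨d₁ + c * af (n / ℓ) + chiNegThree ℓ * d₄ - a ℓ * d₂, ?_⟩
      have e1 : af (n * ℓ) = a (n * ℓ) + 3 * d₁ := by linarith
      have e2 : af n = a n + 3 * d₂ := by linarith
      have e4 : af (n / ℓ) = a (n / ℓ) + 3 * d₄ := by linarith
      have e5 : (ℓ : ℤ) = chiNegThree ℓ + 3 * c := by linarith
      have key : af (n * ℓ) + (ℓ : ℤ) * af (n / ℓ) - a ℓ * af n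
          = 3 * (d₁ + c * af (n / ℓ) + chiNegThree ℓ * d₄ - a ℓ * d₂) := by
        have hrel' : a (n * ℓ) = a ℓ * a n - chiNegThree ℓ * a (n / ℓ) := by linarith
        rw [e1, e2, hrel']
        conv_lhs => rw [e5]
        rw [e4]
        ring
      have := congrArg (fun z : ℤ => (z : ℂ)) key
      push_cast at this ⊢
      linear_combination this
    · rw [if_neg hdvd] at hrel ⊢
      refine ⟨d₁ - a ℓ * d₂, ?_⟩
      have e1 : af (n * ℓ) = a (n * ℓ) + 3 * d₁ := by linarith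
      have e2 : af n = a n + 3 * d₂ := by linarith
      have key : af (n * ℓ) - a ℓ * af n = 3 * (d₁ - a ℓ * d₂) := by
        have hrel' : a (n * ℓ) = a ℓ * a n := by linarith
        rw [e1, e2, hrel']
        ring
      have := congrArg (fun z : ℤ => (z : ℂ)) key
      push_cast at this ⊢
      linear_combination this

end Fermat.Agent.S49
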